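import Fermat.Agent.LevinTorsion.Main

/-!
# Prime torsion over `k(T)` for any field of characteristic zero, and the curve with a point of
order seven
-/

set_option autoImplicit false
set_option linter.unusedSectionVars false
set_option linter.style.haveILetI false

noncomputable section

open Polynomial WeierstrassCurve FA.SzpiroLine FA.NeronSpecialisation FA.LangNeron
open FA.FunctionFieldRank (pointMap pointMap_some pointMap_injective)
open FA.Thirteen (tateCurve)
open scoped Classical

namespace FA.LevinTorsion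

variable {k : Type*} [Field k] [CharZero k]

theorem algebraMap_const (c : k) :
    algebraMap k (RatFunc k) c = algebraMap k[X] (RatFunc k) (C c) := by
  rw [IsScalarTower.algebraMap_apply k k[X] (RatFunc k), Polynomial.algebraMap_eq]

/-- A constant invariant makes `A³` proportional to `A³ - B²`. -/
theorem const_ratio_of_j (E : WeierstrassCurve (RatFunc k)) [E.IsElliptic] {A B : k[X]}
    {C₀ : VariableChange (RatFunc k)} (h : C₀ • E = shortEq A B) {c : k}
    (hc : E.j = algebraMap k (RatFunc k) c) :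
    A ^ 3 = C (c / 1728) * (A ^ 3 - B ^ 2) := by
  have hΔ : (C₀ • E).Δ ≠ 0 := (C₀ • E).isUnit_Δ.ne_zero
  rw [← variableChange_j E C₀, WeierstrassCurve.j, Units.val_inv_eq_inv_val,
    WeierstrassCurve.coe_Δ', inv_mul_eq_iff_eq_mul₀ hΔ] at hc
  rw [h, c₄_shortEq, Δ_shortEq, algebraMap_const] at hc
  refine RatFunc.algebraMap_injective k ?_
  rw [map_mul, map_pow, ← algebraMap_const, map_div₀, map_ofNat, algebraMap_const]
  linear_combination (1 / 6 ^ 12 : RatFunc k) * hc

/-- **Levin's bound over algebraically closed constants**: a point of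
prime order `p ≥ 5` on a curve not coming from the constants lives on a semistable minimal model
with non-constant invariant, and `p ≤ 7`. -/
theorem exists_semistable_model [IsAlgClosed k] (E : WeierstrassCurve (RatFunc k)) [E.IsElliptic]
    (hE : ¬∃ (E₀ : WeierstrassCurve k) (C₀ : VariableChange (RatFunc k)),
      C₀ • E = E₀.map (algebraMap k (RatFunc k)))
    {p : ℕ} (hp : p.Prime) (h5 : 5 ≤ p) {P : E.toAffine.Point} (hP : p • P = 0) (hP0 : P ≠ 0) :
    (∀ c : k, E.j ≠ algebraMap k (RatFunc k) c) ∧ p ≤ 7 ∧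
      ∃ (A B : k[X]) (m : ℕ) (C₀ : VariableChange (RatFunc k)), C₀ • E = shortEq A B ∧
        Minimal A B m ∧ (∀ t, (A ^ 3 - B ^ 2).IsRoot t → ¬A.IsRoot t) ∧
        ((A ^ 3 - B ^ 2).natDegree < 12 * m → A.natDegree = 4 * m) ∧ (p = 7 → 2 ≤ m) := by
  obtain ⟨A, B, m, C₀, h, hD, hmin⟩ := exists_minimal_model E
  have hm : 0 < m := by
    by_contra h0
    refine hE ⟨⟨0, 0, 0, -27 * A.coeff 0, -54 * B.coeff 0⟩, C₀, ?_⟩
    have hA : A = C (A.coeff 0) := eq_C_of_natDegree_eq_zero (by have := hmin.1; omega)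
    have hB : B = C (B.coeff 0) := eq_C_of_natDegree_eq_zero (by have := hmin.2.1; omega)
    rw [h, shortEq, hA, hB]
    ext <;> simp only [WeierstrassCurve.map, map_zero, map_mul, map_neg, map_ofNat,
      algebraMap_const, coeff_C_zero]
  haveI : (shortEq A B).IsElliptic := by rw [← h]; infer_instance
  obtain ⟨hss, hinf, hj, h7, hm2⟩ := semistable_and_le_seven hmin hm hD hp h5
    (P := (FA.Frob.vcEquiv C₀ h).symm P) (by rw [← map_nsmul, hP, map_zero])
    (fun e => hP0 ((FA.Frob.vcEquiv C₀ h).symm.injective (e.trans (map_zero _).symm)))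
  exact ⟨fun c hc => hj ⟨_, const_ratio_of_j E h hc⟩, h7, A, B, m, C₀, h, hmin, hss, hinf, hm2⟩

/-- **Levin: prime torsion over `k(T)`.** An elliptic curve over `k(T)`, `k` of characteristic
zero, not coming from `k`, has no point of prime order above `7`; if it has one of order `5` or
`7` its invariant is not constant. -/
theorem prime_torsion_le_seven (E : WeierstrassCurve (RatFunc k)) [E.IsElliptic]
    (hE : ¬∃ (E₀ : WeierstrassCurve k) (C₀ : VariableChange (RatFunc k)),
      C₀ • E = E₀.map (algebraMap k (RatFunc k)))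
    {P : E.toAffine.Point} (hP : (addOrderOf P).Prime) :
    addOrderOf P ≤ 7 ∧ (5 ≤ addOrderOf P → ∀ c : k, E.j ≠ algebraMap k (RatFunc k) c) := by
  by_cases h5 : 5 ≤ addOrderOf P
  swap
  · exact ⟨by omega, fun h => absurd h h5⟩
  obtain ⟨W, C₀, hW, hC, hiff⟩ := exists_model E
  set ψ := algebraMap k (AlgebraicClosure k)
  set W' := W.map (mapRingHom ψ) with hW'def
  have hW' : W'.Δ ≠ 0 := by
    rw [hW'def, WeierstrassCurve.map_Δ, coe_mapRingHom]
    exact (Polynomial.map_ne_zero_iff ψ.injective).2 hW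
  haveI := genW_isElliptic hW
  haveI := genW_isElliptic hW'
  have hns : ¬IsSplit W' := fun e => hE (hiff.1 (isSplit_of_map hW e))
  have hG : (genW W).map (constMap ψ) = genW W' := genW_map ψ W
  set φ := (pointMap (constMap ψ) hG).comp (FA.Frob.vcEquiv C₀ hC).symm.toAddMonoidHom
  have hφ : Function.Injective φ :=
    (pointMap_injective (constMap ψ) hG).comp (FA.Frob.vcEquiv C₀ hC).symm.injective
  obtain ⟨hj, h7, -⟩ := exists_semistable_model (genW W') (fun e => hns ((isSplit_iff hW').2 e))
    hP h5 (P := φ P) (by rw [← map_nsmul, addOrderOf_nsmul_eq_zero, map_zero])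
    (fun e => by
      rw [← map_zero φ] at e
      rw [hφ e, addOrderOf_zero] at hP
      exact Nat.not_prime_one hP)
  refine ⟨h7, fun _ c hc => hj (ψ c) ?_⟩
  have hjW : (genW W).j = algebraMap k (RatFunc k) c := by
    rw [← hc, ← variableChange_j E C₀]
    simp only [hC]
  calc (genW W').j = ((genW W).map (constMap ψ)).j := by simp only [hG]
    _ = constMap ψ (genW W).j := WeierstrassCurve.map_j ..
    _ = algebraMap (AlgebraicClosure k) (RatFunc (AlgebraicClosure k)) (ψ c) := by
      rw [hjW, algebraMap_const, algebraMap_const, constMap_algebraMap, map_C]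

/-- Tate's curve of order seven over `k[T]`. -/
def sevenW (k : Type*) [Field k] : WeierstrassCurve k[X] :=
  ⟨1 - (X ^ 2 - X), -(X ^ 3 - X ^ 2), -(X ^ 3 - X ^ 2), 0, 0⟩

/-- **Seven occurs**, on the generic fibre of `sevenW`. -/
theorem exists_order_seven_genW (k : Type*) [Field k] [CharZero k] :
    ∃ (E : WeierstrassCurve (RatFunc k)) (_ : E.IsElliptic) (P : E.toAffine.Point),
      addOrderOf P = 7 ∧ (∀ c : k, E.j ≠ algebraMap k (RatFunc k) c) ∧
        (¬∃ (E₀ : WeierstrassCurve k) (C₀ : VariableChange (RatFunc k)),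
          C₀ • E = E₀.map (algebraMap k (RatFunc k))) ∧ E = genW (sevenW k) := by
  set d : RatFunc k := RatFunc.X with hd
  set b := d ^ 3 - d ^ 2 with hb
  set c := d ^ 2 - d with hc
  have hgen : genW (sevenW k) = tateCurve b c := by
    ext <;> simp [sevenW, tateCurve, hb, hc, hd, WeierstrassCurve.map, RatFunc.algebraMap_X]
  have hΔ0 : (sevenW k).Δ ≠ 0 := fun e => by
    have h := congrArg (evalRingHom (2 : k)) e
    rw [← WeierstrassCurve.map_Δ, map_zero] at h
    simp [sevenW, WeierstrassCurve.map, WeierstrassCurve.Δ, WeierstrassCurve.b₂,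
      WeierstrassCurve.b₄, WeierstrassCurve.b₆, WeierstrassCurve.b₈] at h
    norm_num at h
  haveI : (tateCurve b c).IsElliptic := hgen ▸ genW_isElliptic hΔ0
  have hX : d ≠ 0 := RatFunc.X_ne_zero
  have hX1 : d - 1 ≠ 0 := by
    rw [hd, ← RatFunc.algebraMap_X, ← map_one (algebraMap k[X] (RatFunc k)), ← map_sub]
    exact RatFunc.algebraMap_ne_zero (by simpa using X_sub_C_ne_zero (1 : k))
  have hc0 : c ≠ 0 := by
    rw [hc, show d ^ 2 - d = d * (d - 1) by ring]; exact mul_ne_zero hX hX1
  have hbc : b / c = d := by rw [div_eq_iff hc0, hb, hc]; ring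
  have h0 : (tateCurve b c).toAffine.Nonsingular 0 0 := by
    refine (WeierstrassCurve.Affine.equation_iff_nonsingular).mp ?_
    rw [Affine.equation_iff]
    simp [tateCurve]
  have hj : ∀ e : k, (tateCurve b c).j ≠ algebraMap k (RatFunc k) e := by
    intro e he
    rw [WeierstrassCurve.j, Units.val_inv_eq_inv_val, WeierstrassCurve.coe_Δ',
      inv_mul_eq_iff_eq_mul₀ (tateCurve b c).isUnit_Δ.ne_zero, ← hgen, WeierstrassCurve.map_c₄,
      WeierstrassCurve.map_Δ, algebraMap_const, ← map_pow, ← map_mul] at he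
    have h := congrArg (evalRingHom (0 : k)) (RatFunc.algebraMap_injective k he)
    simp [sevenW, WeierstrassCurve.c₄, WeierstrassCurve.Δ, WeierstrassCurve.b₂,
      WeierstrassCurve.b₄, WeierstrassCurve.b₆, WeierstrassCurve.b₈] at h
  refine ⟨tateCurve b c, inferInstance, .some 0 0 h0, ?_, hj,
    not_constant_of_j (tateCurve b c) hj, hgen.symm⟩
  obtain ⟨h3, e3⟩ := FA.Torsion.tate_three (b := b) (c := c) (h0 := h0)
  obtain ⟨h4, e4⟩ := FA.Torsion.tate_four (b := b) (c := c) (h0 := h0) hc0
  haveI := Fact.mk (by norm_num : (7 : ℕ).Prime)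
  refine addOrderOf_eq_prime ?_ (Affine.Point.some_ne_zero h0)
  rw [show 7 = 4 + 3 from rfl, add_nsmul, ← eq_neg_iff_add_eq_zero, e3, e4,
    Affine.Point.neg_some, Affine.Point.some.injEq]
  constructor
  · rw [hbc, hc]; ring
  · rw [hbc]; simp only [tateCurve, Affine.negY, hb, hc]; ring

/-- **Seven occurs.** -/
theorem exists_order_seven (k : Type*) [Field k] [CharZero k] :
    ∃ (E : WeierstrassCurve (RatFunc k)) (_ : E.IsElliptic) (P : E.toAffine.Point),
      addOrderOf P = 7 ∧ (∀ c : k, E.j ≠ algebraMap k (RatFunc k) c) ∧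
        ¬∃ (E₀ : WeierstrassCurve k) (C₀ : VariableChange (RatFunc k)),
          C₀ • E = E₀.map (algebraMap k (RatFunc k)) := by
  obtain ⟨E, hE, P, h7, hj, hc, -⟩ := exists_order_seven_genW k
  exact ⟨E, hE, P, h7, hj, hc⟩

end FA.LevinTorsion
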