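import Fermat.Agent.Local.Multiplicative
import Fermat.Agent.Local.Torsion
import Mathlib.Data.ZMod.Basic
import Mathlib.Algebra.BigOperators.Intervals

/-!
# Torsion of order `p ≥ 5` on a short equation at a place of residue characteristic zero

For `y² = x³ - 27 a x - 54 b` minimal at a valuation at which the nonzero integers are units and a
point of order `p ≥ 5` the reduction is good or multiplicative. At a multiplicative place with
discriminant of order `δ` either all multiples have ordinate a unit, or `p` divides `δ` and the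
orders of the ordinates of the first `(p - 1) / 2` multiples are the multiples of `δ / p`.
-/

set_option autoImplicit false
set_option linter.unusedSectionVars false
set_option linter.style.haveILetI false

noncomputable section

open WeierstrassCurve FA.Local
open scoped Classical

namespace FA.LevinTorsion

/-- A multiple prime to the order generates. -/
theorem exists_nsmul_eq {G : Type*} [AddCommGroup G] {p n : ℕ} (hp : p.Prime) (hn : ¬p ∣ n)
    {P : G} (hP : p • P = 0) : ∃ m : ℕ, m • (n • P) = P := by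
  have := Fact.mk hp
  have hn0 : (n : ZMod p) ≠ 0 := by rwa [Ne, ZMod.natCast_eq_zero_iff]
  refine ⟨(n : ZMod p)⁻¹.val, ?_⟩
  set m := (n : ZMod p)⁻¹.val with hm
  have hmod : (n * m) % p = 1 := by
    have h : ((n * m : ℕ) : ZMod p) = (1 : ℕ) := by
      rw [Nat.cast_mul, hm, ZMod.natCast_zmod_val, mul_inv_cancel₀ hn0, Nat.cast_one]
    rw [(ZMod.natCast_eq_natCast_iff' _ _ _).mp h, Nat.mod_eq_of_lt hp.one_lt]
  rw [← mul_nsmul, ← Nat.mod_add_div (n * m) p, hmod, add_nsmul, one_nsmul, mul_nsmul, hP,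
    smul_zero, add_zero]

variable {L Γ : Type*} [Field L] [LinearOrderedCommGroupWithZero Γ] {v : Valuation L Γ}

/-- The short equation. -/
def shortL (a b : L) : WeierstrassCurve L := ⟨0, 0, 0, -27 * a, -54 * b⟩

theorem Δ_shortL (a b : L) : (shortL a b).Δ = 2 ^ 6 * 3 ^ 9 * (a ^ 3 - b ^ 2) := by
  simp only [shortL, WeierstrassCurve.Δ, b₂, b₄, b₆, b₈]; ring

theorem c₄_shortL (a b : L) : (shortL a b).c₄ = 6 ^ 4 * a := by
  simp only [shortL, c₄, b₂, b₄]; ring

theorem equation_shortL {a b x y : L} (h : (shortL a b).toAffine.Equation x y) :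
    y ^ 2 = x ^ 3 - 27 * a * x - 54 * b := by
  have h' := (Affine.equation_iff x y).1 h
  simp only [shortL] at h'
  linear_combination h'

variable (hv : ∀ n : ℤ, n ≠ 0 → v (n : L) = 1)
include hv

theorem val_ofNat (n : ℕ) [n.AtLeastTwo] : v (OfNat.ofNat n : L) = 1 := by
  have h := hv (OfNat.ofNat n : ℕ) (by exact_mod_cast (OfNat.ofNat_ne_zero n))
  simpa using h

theorem two_ne : (2 : L) ≠ 0 := fun e => by simpa [e] using val_ofNat hv 2

theorem isElliptic_shortL {a b : L} (h : a ^ 3 - b ^ 2 ≠ 0) : (shortL a b).IsElliptic := by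
  refine (WeierstrassCurve.isElliptic_iff _).2 (isUnit_iff_ne_zero.2 ?_)
  rw [Δ_shortL]
  refine mul_ne_zero ?_ h
  rw [← v.ne_zero_iff, map_mul, map_pow, map_pow, val_ofNat hv 2, val_ofNat hv 3]
  simp

theorem val_Δ_shortL (a b : L) : v (shortL a b).Δ = v (a ^ 3 - b ^ 2) := by
  rw [Δ_shortL, map_mul, map_mul, map_pow, map_pow, val_ofNat hv 2, val_ofNat hv 3, one_pow,
    one_pow, one_mul, one_mul]

theorem intCoeff_shortL {a b : L} (ha : v a ≤ 1) (hb : v b ≤ 1) :
    IntCoeff v (shortL a b).toAffine := by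
  refine ⟨?_, ?_, ?_, ?_, ?_⟩
  · show v 0 ≤ 1; simp
  · show v 0 ≤ 1; simp
  · show v 0 ≤ 1; simp
  · show v (-27 * a) ≤ 1
    rw [neg_mul, v.map_neg, map_mul, val_ofNat hv 27, one_mul]; exact ha
  · show v (-54 * b) ≤ 1
    rw [neg_mul, v.map_neg, map_mul, val_ofNat hv 54, one_mul]; exact hb

variable [DecidableEq L] {p : ℕ} (hp : p.Prime) (h5 : 5 ≤ p)

section Torsion

variable {W : WeierstrassCurve L} [W.IsElliptic] (hI : IntCoeff v W.toAffine)
  {x y : L} {h : W.toAffine.Nonsingular x y} (hP : p • Affine.Point.some x y h = 0)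
include hp h5 hI hP

/-- A torsion point is integral. -/
theorem val_x_le : v x ≤ 1 := by
  by_contra hx
  exact Affine.Point.some_ne_zero h (eq_zero_of_e1_of_nsmul hI (hp.odd_of_ne_two (by omega))
    (by simpa using hv p (by exact_mod_cast hp.ne_zero)) (P := .some x y h) (not_le.mp hx) hP)

/-- At a nonsingular reduction it is not congruent to its opposite. -/
theorem val_fy_of_nsRed (hns : NsRed v W.toAffine x y) : v (fy W.toAffine x y) = 1 := by
  have hx := val_x_le hv hp h5 hI hP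
  refine eq_one_of_not_lt (fy_le hI hx (le_y_of_le_x hI h.1 hx)) fun hlt => ?_
  have hE := e1_sub_of_congr hI h ((Affine.nonsingular_neg x y).2 h) hx hns (by simp) (by
    rwa [show y - W.toAffine.negY x y = fy W.toAffine x y by simp only [fy, Affine.negY]; ring])
  rw [← Affine.Point.neg_some h, sub_neg_eq_add] at hE
  have h2 := eq_zero_of_e1_of_nsmul hI (hp.odd_of_ne_two (by omega))
    (by simpa using hv p (by exact_mod_cast hp.ne_zero)) hE (by rw [smul_add, hP, add_zero])
  obtain ⟨m, hm⟩ := exists_nsmul_eq hp (n := 2) (fun hd => by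
    have := Nat.le_of_dvd two_pos hd; omega) hP
  rw [two_nsmul, h2, smul_zero] at hm
  exact Affine.Point.some_ne_zero h hm.symm

end Torsion

/-- A unit discriminant makes every integral point reduce to a nonsingular one. -/
theorem nsRed_of_good {a b : L} (ha : v a ≤ 1) (hb : v b ≤ 1) (hD : v (a ^ 3 - b ^ 2) = 1)
    {x y : L} (h : (shortL a b).toAffine.Equation x y) (hx : v x ≤ 1) :
    NsRed v (shortL a b).toAffine x y := by
  have hI := intCoeff_shortL hv ha hb
  have hy := le_y_of_le_x hI h hx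
  by_contra hc
  obtain ⟨h1, h2⟩ := not_or.mp hc
  have h1 := lt_of_le_of_ne (fy_le hI hx hy) h1
  have h2 := lt_of_le_of_ne (fx_le hI hx hy) h2
  simp only [fx, fy, shortL, mul_zero, zero_mul, add_zero, sub_zero] at h1 h2
  rw [map_mul, val_ofNat hv 2, one_mul] at h1
  have hf : v (x ^ 2 - 9 * a) < 1 := by
    rwa [show 3 * x ^ 2 + -27 * a = 3 * (x ^ 2 - 9 * a) by ring, map_mul, val_ofNat hv 3,
      one_mul] at h2
  have e : 162 * (a ^ 3 - b ^ 2) = (a * x - 3 * b) * (x * (x ^ 2 - 9 * a) - y ^ 2) -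
      18 * a ^ 2 * (x ^ 2 - 9 * a) := by
    linear_combination (a * x - 3 * b) * equation_shortL h
  have hlt : v (162 * (a ^ 3 - b ^ 2)) < 1 := by
    rw [e]
    refine v.map_sub_lt (map_mul_lt_one ?_ (v.map_sub_lt (map_mul_lt_one hx hf) ?_))
      (map_mul_lt_one (map_mul_le_one (natCast_le_one 18) (map_pow_le_one ha 2)) hf)
    · exact v.map_sub_le (map_mul_le_one ha hx) (map_mul_le_one le_three hb)
    · rw [sq]; exact map_mul_lt_one hy h1
  rw [map_mul, val_ofNat hv 162, one_mul, hD] at hlt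
  exact lt_irrefl _ hlt

include hp h5

/-- At a good place the ordinate is a unit. -/
theorem val_y_of_good {a b : L} [(shortL a b).IsElliptic] (ha : v a ≤ 1) (hb : v b ≤ 1)
    (hD : v (a ^ 3 - b ^ 2) = 1) {x y : L} {h : (shortL a b).toAffine.Nonsingular x y}
    (hP : p • Affine.Point.some x y h = 0) : v y = 1 := by
  have hI := intCoeff_shortL hv ha hb
  have := val_fy_of_nsRed hv hp h5 hI hP
    (nsRed_of_good hv ha hb hD h.1 (val_x_le hv hp h5 hI hP))
  simpa [fy, shortL, val_ofNat hv 2] using this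

/-- At a good place with `a` small there is no point with small abscissa: it would be a flex. -/
theorem false_of_flex {a b : L} [(shortL a b).IsElliptic] (ha : v a < 1) (hb : v b ≤ 1)
    (hD : v (a ^ 3 - b ^ 2) = 1) {x y : L} {h : (shortL a b).toAffine.Nonsingular x y}
    (hP : p • Affine.Point.some x y h = 0) (hx : v x < 1) : False := by
  have hI := intCoeff_shortL hv ha.le hb
  have hy := val_y_of_good hv hp h5 ha.le hb hD hP
  have hne : y ≠ (shortL a b).toAffine.negY x y := fun e => by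
    have h0 : 2 * y = 0 := by
      simp only [Affine.negY, shortL, zero_mul, sub_zero] at e
      linear_combination e
    rw [(mul_eq_zero.mp h0).resolve_left (two_ne hv), map_zero] at hy
    exact zero_ne_one hy
  set l := (shortL a b).toAffine.slope x x y y with hl
  have hl1 : v l < 1 := by
    rw [hl, Affine.slope_of_Y_ne rfl hne]
    refine map_div_lt_one ?_
    simp only [Affine.negY, shortL, mul_zero, zero_mul, sub_zero, add_zero, sub_neg_eq_add]
    rw [← two_mul, map_mul v 2 y, val_ofNat hv 2, hy, one_mul]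
    refine v.map_add_lt (map_mul_lt_one le_three ?_) ?_
    · rw [sq]; exact map_mul_lt_one hx.le hx
    · rw [neg_mul, v.map_neg]; exact map_mul_lt_one (natCast_le_one 27) ha
  have hadd := Affine.Point.add_self_of_Y_ne (h₁ := h) hne
  set x₂ := (shortL a b).toAffine.addX x x l with hx₂
  have hx₂1 : v x₂ < 1 := by
    simp only [hx₂, Affine.addX, shortL, zero_mul, sub_zero, add_zero]
    refine v.map_sub_lt (v.map_sub_lt ?_ hx) hx
    rw [sq]; exact map_mul_lt_one hl1.le hl1
  have h2ns : (shortL a b).toAffine.Nonsingular x₂ ((shortL a b).toAffine.addY x x y l) :=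
    Affine.nonsingular_add h h fun hh => hne hh.2
  have hE := e1_sub_of_congr hI h2ns ((Affine.nonsingular_neg x y).2 h) hx₂1.le
    (nsRed_of_good hv ha.le hb hD h2ns.1 hx₂1.le) (v.map_sub_lt hx₂1 hx) (by
      rw [show (shortL a b).toAffine.addY x x y l - (shortL a b).toAffine.negY x y = -(l * (x₂ - x)) by
        simp only [hx₂, Affine.addY, Affine.negAddY, Affine.negY, shortL]; ring, v.map_neg]
      exact map_mul_lt_one' hl1 (v.map_sub_le hx₂1.le hx.le))
  have e3 : Affine.Point.some x₂ ((shortL a b).toAffine.addY x x y l) h2ns -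
      Affine.Point.some x ((shortL a b).toAffine.negY x y) ((Affine.nonsingular_neg x y).2 h) =
      3 • Affine.Point.some x y h := by
    rw [← Affine.Point.neg_some h, sub_neg_eq_add, succ_nsmul, two_nsmul, hadd]
  rw [e3] at hE
  have h3 := eq_zero_of_e1_of_nsmul hI (hp.odd_of_ne_two (by omega))
    (by simpa using hv p (by exact_mod_cast hp.ne_zero)) hE (by
      rw [← mul_nsmul, mul_comm, mul_nsmul, hP, smul_zero])
  obtain ⟨m, hm⟩ := exists_nsmul_eq hp (n := 3) (fun hd => by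
    have := Nat.le_of_dvd (by norm_num) hd; omega) hP
  rw [h3, smul_zero] at hm
  exact Affine.Point.some_ne_zero h hm.symm

omit hp h5 in
/-- The node of a multiplicative place. -/
theorem exists_mult [IsAlgClosed L] {a b : L} [(shortL a b).IsElliptic] (ha : v a = 1)
    (hb : v b ≤ 1) (hD : v (a ^ 3 - b ^ 2) < 1) :
    ∃ r : L, Node v (toOrigin (shortL a b) r).toAffine ∧
      v (toOrigin (shortL a b) r).a₄ ^ 2 = v (a ^ 3 - b ^ 2) := by
  obtain ⟨r, hr, -, hN⟩ := exists_node (intCoeff_shortL hv ha.le hb) (two_ne hv)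
    (by rwa [val_Δ_shortL hv]) (shortL a b).isUnit_Δ.ne_zero
    (by rw [c₄_shortL, map_mul, map_pow, val_ofNat hv 6, one_pow, one_mul, ha])
  refine ⟨r, hN, ?_⟩
  have hB : v (discB (shortL a b) r ^ 2) = 1 := by
    rw [map_pow, ← toOrigin_disc]
    simp only [hN.hdisc, one_pow]
  have hBA : v (discB (shortL a b) r ^ 2 - 64 * (toOrigin (shortL a b) r).a₄) = 1 := by
    refine eq_one_of_sub_lt hB ?_
    rw [sub_sub_cancel_left, v.map_neg]
    exact map_mul_lt_one (natCast_le_one 64) hN.hb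
  rw [← val_Δ_shortL hv, toOrigin_Δ_eq (two_ne hv) hr, map_mul, map_pow, hBA, mul_one]

/-- A torsion point in nodal coordinates. -/
theorem mult_point {a b r : L} [(shortL a b).IsElliptic]
    (hN : Node v (toOrigin (shortL a b) r).toAffine)
    (hA : v (toOrigin (shortL a b) r).a₄ ^ 2 = v (a ^ 3 - b ^ 2)) {x y : L}
    {h : (toOrigin (shortL a b) r).toAffine.Nonsingular x y}
    (hP : p • Affine.Point.some x y h = 0) :
    (E0 v _ (Affine.Point.some x y h) ∧ v y = 1) ∨
      (Br v _ (Affine.Point.some x y h) (v y) (y / x) ∧ v y < 1 ∧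
        v (a ^ 3 - b ^ 2) < v y ^ 2 ∧ ∃ i : ℕ, v y ^ p = v (a ^ 3 - b ^ 2) ^ i) := by
  have h₁ : (toOrigin (shortL a b) r).a₁ = 0 := by rw [toOrigin_a₁]; rfl
  rcases hN.e0_or_br (hp.odd_of_ne_two (by omega)) hP with hE | ⟨g, s, hbr⟩
  · refine Or.inl ⟨hE, ?_⟩
    have hx1 : v x = 1 := le_antisymm (val_x_le hv hp h5 hN.hI hP) ((e0_some h).1 hE)
    have := val_fy_of_nsRed hv hp h5 hN.hI hP (hN.nsRed h.1 hx1)
    rw [fy, hN.h₃, show (toOrigin (shortL a b) r).toAffine.a₁ = 0 from h₁, zero_mul, add_zero,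
      add_zero, map_mul, val_ofNat hv 2, one_mul] at this
    exact this
  · obtain ⟨i, hi⟩ := hN.pow_eq_of_torsion_even hp hbr hP
    rw [br_some] at hbr
    obtain ⟨hg, hbg, hg1, hs, hq⟩ := hbr
    have hx0 : x ≠ 0 := v.pos_iff.mp (hg ▸ lt_of_le_of_lt zero_le hbg)
    have hs1 : v s = 1 := by
      have := hN.unit_root hq
      rwa [show (toOrigin (shortL a b) r).toAffine.a₁ = 0 from h₁, add_zero, map_mul,
        val_ofNat hv 2, one_mul] at this
    have hvy : v y = v x := by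
      have h' := eq_one_of_sub_lt hs1 hs
      rwa [map_div₀, div_eq_one_iff_eq (v.ne_zero_iff.2 hx0)] at h'
    refine Or.inr ⟨hvy ▸ hN.br_self h (hg ▸ hbg) (hg ▸ hg1), by rw [hvy, hg]; exact hg1, ?_, i, ?_⟩
    · rw [hvy, hg, ← hA]; exact pow_lt_pow_left₀ hbg zero_le two_ne_zero
    · rw [hvy, hg, hi, ← hA, ← pow_mul]

omit hp h5 in
theorem origin_symm_some {a b r x y : L} [(shortL a b).IsElliptic]
    (h : (shortL a b).toAffine.Nonsingular x y) :
    ∃ h', (originEquiv (shortL a b) r).symm (Affine.Point.some x y h) =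
      Affine.Point.some (x - r) y h' := by
  obtain ⟨P', hP'⟩ := (originEquiv (shortL a b) r).surjective (.some x y h)
  rcases P' with _ | ⟨x', y', h'⟩
  · rw [← Affine.Point.zero_def, map_zero] at hP'
    exact absurd hP'.symm (Affine.Point.some_ne_zero h)
  obtain ⟨h'', e⟩ := originEquiv_some h'
  rw [e, Affine.Point.some.injEq] at hP'
  have hy : halfY (shortL a b) r = 0 := by simp [halfY, shortL]
  obtain ⟨rfl, rfl⟩ : x' = x - r ∧ y' = y := ⟨eq_sub_iff_add_eq.2 hP'.1, by
    simpa [hy] using hP'.2⟩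
  refine ⟨h', (AddEquiv.symm_apply_eq _).2 ?_⟩
  rw [e]
  simp [hy]

omit hp h5 in
/-- The change of variables `x = u² x'`, `y = u³ y'`. -/
theorem exists_scaled {a b a' b' u : L} [(shortL a b).IsElliptic] [(shortL a' b').IsElliptic]
    (hu : u ≠ 0) (ha : a = u ^ 4 * a') (hb : b = u ^ 6 * b') {x y : L}
    {h : (shortL a b).toAffine.Nonsingular x y} (hP : p • Affine.Point.some x y h = 0) :
    ∃ (x' y' : L) (h' : (shortL a' b').toAffine.Nonsingular x' y'),
      p • Affine.Point.some x' y' h' = 0 ∧ x = u ^ 2 * x' ∧ y = u ^ 3 * y' := by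
  have hC : (⟨Units.mk0 u hu, 0, 0, 0⟩ : VariableChange L) • shortL a b = shortL a' b' := by
    ext <;> simp only [variableChange_a₁, variableChange_a₂, variableChange_a₃,
      variableChange_a₄, variableChange_a₆, Units.val_inv_eq_inv_val, Units.val_mk0, shortL, ha,
      hb]
    all_goals field_simp
    all_goals ring
  set φ := FA.Frob.vcEquiv (⟨Units.mk0 u hu, 0, 0, 0⟩ : VariableChange L) hC
  obtain ⟨P', hP'⟩ := φ.surjective (.some x y h)
  rcases P' with _ | ⟨x', y', h'⟩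
  · rw [← Affine.Point.zero_def, map_zero] at hP'
    exact absurd hP'.symm (Affine.Point.some_ne_zero h)
  refine ⟨x', y', h', φ.injective (by rw [map_nsmul, hP', hP, map_zero]), ?_⟩
  rw [FA.Frob.vcEquiv_some, Affine.Point.some.injEq] at hP'
  simp only [FA.Frob.vcX, FA.Frob.vcY, Units.val_mk0, zero_mul, add_zero] at hP'
  exact ⟨hP'.1.symm, hP'.2.symm⟩

/-- The multiples at a multiplicative place. -/
theorem mult_sum [IsAlgClosed L] {q : Γ} (hq0 : 0 < q) (hq1 : q < 1) {a b : L}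
    [(shortL a b).IsElliptic] (ha : v a = 1) (hb : v b ≤ 1) {δ : ℕ} (hδ : 0 < δ)
    (hD : v (a ^ 3 - b ^ 2) = q ^ δ) {x y : L} {h : (shortL a b).toAffine.Nonsingular x y}
    (hP : p • Affine.Point.some x y h = 0) (X Y : ℕ → L) (e : ℕ → ℕ)
    (hmul : ∀ j ∈ Finset.Icc 1 ((p - 1) / 2), ∃ hj,
      j • Affine.Point.some x y h = Affine.Point.some (X j) (Y j) hj)
    (hY : ∀ j ∈ Finset.Icc 1 ((p - 1) / 2), v (Y j) = q ^ e j) :
    (∀ j ∈ Finset.Icc 1 ((p - 1) / 2), e j = 0) ∨
      (p ∣ δ ∧ ∑ j ∈ Finset.Icc 1 ((p - 1) / 2), e j =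
        δ / p * ∑ i ∈ Finset.Icc 1 ((p - 1) / 2), i) := by
  set S := Finset.Icc 1 ((p - 1) / 2) with hS
  have hmem : ∀ {j}, j ∈ S → 1 ≤ j ∧ 2 * j < p := fun {j} hj => by
    rw [hS, Finset.mem_Icc] at hj; omega
  obtain ⟨r, hN, hA⟩ := exists_mult hv ha hb (hD ▸ pow_lt_one₀ zero_le hq1 hδ.ne')
  set φ := originEquiv (shortL a b) r
  set P := φ.symm (Affine.Point.some x y h) with hPdef
  have hP0 : p • P = 0 := by rw [hPdef, ← map_nsmul, hP, map_zero]
  have hcoord : ∀ j ∈ S, ∃ h', j • P = Affine.Point.some (X j - r) (Y j) h' := fun j hj => by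
    obtain ⟨hj', ej⟩ := hmul j hj
    obtain ⟨h', e'⟩ := origin_symm_some hv (r := r) hj'
    exact ⟨h', by rw [hPdef, ← map_nsmul, ej, e']⟩
  have hinj := pow_right_injective₀ hq0 hq1.ne
  have hpt : ∀ j ∈ S, (E0 v _ (j • P) ∧ e j = 0) ∨ (∃ i : ℕ,
      Br v _ (j • P) (q ^ e j) (Y j / (X j - r)) ∧ 0 < e j ∧ 2 * e j < δ ∧
        e j * p = δ * i) := by
    intro j hj
    obtain ⟨h', ej⟩ := hcoord j hj
    have hjP : p • Affine.Point.some (X j - r) (Y j) h' = 0 := by
      rw [← ej, ← mul_nsmul, mul_comm, mul_nsmul, hP0, smul_zero]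
    rcases mult_point hv hp h5 hN hA hjP with ⟨hE, h1⟩ | ⟨hbr, h1, h2, i, hi⟩
    · refine Or.inl ⟨ej ▸ hE, hinj ?_⟩
      simp only [pow_zero, ← hY j hj, h1]
    · rw [hY j hj] at hbr h1 h2 hi
      rw [hD] at h2 hi
      rw [← pow_mul] at h2
      refine Or.inr ⟨i, ej ▸ hbr, Nat.pos_of_ne_zero fun h0 => ?_, ?_, hinj ?_⟩
      · rw [h0, pow_zero] at h1; exact lt_irrefl _ h1
      · by_contra hle
        exact absurd h2 (not_lt.2 (pow_le_pow_of_le_one zero_le hq1.le (by omega)))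
      · simpa only [← pow_mul] using hi
  by_cases h0 : E0 v (toOrigin (shortL a b) r).toAffine P
  · refine Or.inl fun j hj => ?_
    rcases hpt j hj with ⟨-, h⟩ | ⟨i, hbr, -⟩
    · exact h
    · exact absurd (hN.e0_nsmul h0 j) hbr.not_e0
  refine Or.inr ?_
  have hgen : ∀ n, 0 < n → n < p → ¬E0 v (toOrigin (shortL a b) r).toAffine (n • P) := by
    intro n hn hnp hE
    obtain ⟨m, hm⟩ := exists_nsmul_eq hp (Nat.not_dvd_of_pos_of_lt hn hnp) hP0
    exact h0 (hm ▸ hN.e0_nsmul hE m)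
  have hbrs : ∀ j ∈ S, ∃ i : ℕ, Br v _ (j • P) (q ^ e j) (Y j / (X j - r)) ∧
      i ∈ S ∧ e j * p = δ * i := by
    intro j hj
    obtain ⟨h1, h2⟩ := hmem hj
    rcases hpt j hj with ⟨hE, -⟩ | ⟨i, hbr, he0, he2, hi⟩
    · exact absurd hE (hgen j h1 (by omega))
    refine ⟨i, hbr, ?_, hi⟩
    rw [hS, Finset.mem_Icc]
    have h3 : 2 * i < p := by
      by_contra hle
      have := Nat.mul_le_mul_left δ (not_lt.1 hle)
      nlinarith
    have h4 : i ≠ 0 := fun h => by rw [h, mul_zero, mul_eq_zero] at hi; omega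
    omega
  choose! f hbr hf he using hbrs
  have hfinj : Set.InjOn f S := by
    intro j hj l hl hjl
    wlog hle : j ≤ l generalizing j l
    · exact (this hl hj hjl.symm (le_of_not_ge hle)).symm
    by_contra hne
    have hee : e l = e j := by
      have := he l hl
      rw [← hjl, ← he j hj] at this
      exact Nat.eq_of_mul_eq_mul_right hp.pos this
    obtain ⟨-, hj2⟩ := hmem hj
    obtain ⟨hl1, hl2⟩ := hmem hl
    have hbj := hbr j hj
    have hbl := hbr l hl
    rw [hee] at hbl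
    obtain ⟨xj, yj, hj', ej⟩ := hbj.exists_eq
    obtain ⟨xl, yl, hl', el⟩ := hbl.exists_eq
    have hsj : v (qb (toOrigin (shortL a b) r).toAffine (Y j / (X j - r))) < 1 := by
      have h := hbj
      rw [ej, br_some] at h
      exact h.2.2.2.2
    have hsl : v (qb (toOrigin (shortL a b) r).toAffine (Y l / (X l - r))) < 1 := by
      have h := hbl
      rw [el, br_some] at h
      exact h.2.2.2.2
    rcases Node.root_cases hsj hsl with h | h
    · have hE := hN.sub_e0_of_br (Node.br_congr hbl hsj h) hbj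
      rw [sub_eq_iff_eq_add.2 (show l • P = (l - j) • P + j • P by
        rw [← add_nsmul, Nat.sub_add_cancel hle])] at hE
      exact hgen (l - j) (by omega) (by omega) hE
    · have hE := (hN.add_opp hbj (Node.br_congr hbl (by rw [Node.qb_other]; exact hsj) h)).1 rfl
      rw [← add_nsmul] at hE
      exact hgen (j + l) (by omega) (by omega) hE
  have himg : S.image f = S := Finset.eq_of_subset_of_card_le
    (fun i hi => by obtain ⟨j, hj, rfl⟩ := Finset.mem_image.1 hi; exact hf j hj)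
    (Finset.card_image_of_injOn hfinj).ge
  have h1 : (1 : ℕ) ∈ S := by rw [hS, Finset.mem_Icc]; omega
  have hpδ : p ∣ δ := by
    refine (hp.dvd_mul.1 (⟨e 1, by rw [mul_comm p, he 1 h1]⟩ : p ∣ δ * f 1)).resolve_right ?_
    obtain ⟨ha1, ha2⟩ := hmem (hf 1 h1)
    exact Nat.not_dvd_of_pos_of_lt ha1 (by omega)
  refine ⟨hpδ, ?_⟩
  conv_rhs => rw [← himg, Finset.sum_image hfinj, Finset.mul_sum]
  refine Finset.sum_congr rfl fun j hj => Nat.eq_of_mul_eq_mul_right hp.pos ?_
  rw [he j hj, mul_right_comm, Nat.div_mul_cancel hpδ]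

/-- **The places of the curve**: no additive reduction, and the orders of the ordinates. -/
theorem local_cases [IsAlgClosed L] {π : L} (hπ : π ≠ 0) (hπ1 : v π < 1) {a b : L}
    [(shortL a b).IsElliptic] (ha : v a ≤ 1) (hb : v b ≤ 1)
    (hmin : ¬(v a ≤ v π ^ 4 ∧ v b ≤ v π ^ 6)) (ha' : a = 0 ∨ ∃ n : ℕ, v a = v π ^ n)
    (hb' : b = 0 ∨ ∃ n : ℕ, v b = v π ^ n) {δ : ℕ} (hD : v (a ^ 3 - b ^ 2) = v π ^ δ)
    {x y : L} {h : (shortL a b).toAffine.Nonsingular x y}
    (hP : p • Affine.Point.some x y h = 0) (hx' : x = 0 ∨ ∃ n : ℕ, v x = v π ^ n)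
    (X Y : ℕ → L) (e : ℕ → ℕ)
    (hmul : ∀ j ∈ Finset.Icc 1 ((p - 1) / 2), ∃ hj,
      j • Affine.Point.some x y h = Affine.Point.some (X j) (Y j) hj)
    (hY : ∀ j ∈ Finset.Icc 1 ((p - 1) / 2), v (Y j) = v π ^ e j) :
    (δ = 0 → ∀ j ∈ Finset.Icc 1 ((p - 1) / 2), e j = 0) ∧ (0 < δ → v a = 1) ∧
      ((∀ j ∈ Finset.Icc 1 ((p - 1) / 2), e j = 0) ∨
        (p ∣ δ ∧ ∑ j ∈ Finset.Icc 1 ((p - 1) / 2), e j =
          δ / p * ∑ i ∈ Finset.Icc 1 ((p - 1) / 2), i)) := by
  set q := v π with hq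
  have hq0 : 0 < q := v.pos_iff.2 hπ
  have hinj := pow_right_injective₀ hq0 hπ1.ne
  have hle : ∀ {m n : ℕ}, q ^ m ≤ q ^ n ↔ n ≤ m := pow_le_pow_iff_right_of_lt_one₀ hq0 hπ1
  have hgood : δ = 0 → ∀ j ∈ Finset.Icc 1 ((p - 1) / 2), e j = 0 := by
    intro h0 j hj
    rw [h0, pow_zero] at hD
    obtain ⟨hj', ej⟩ := hmul j hj
    have := val_y_of_good hv hp h5 ha hb hD (h := hj')
      (by rw [← ej, ← mul_nsmul, mul_comm, mul_nsmul, hP, smul_zero])
    rw [hY j hj] at this
    exact hinj (by simpa using this)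
  suffices hss : 0 < δ → v a = 1 by
    refine ⟨hgood, hss, ?_⟩
    rcases Nat.eq_zero_or_pos δ with h0 | h0
    · exact Or.inl (hgood h0)
    · exact mult_sum hv hp h5 hq0 hπ1 (hss h0) hb h0 hD hP X Y e hmul hY
  intro hδ
  by_contra ha1
  have ha1 : v a < 1 := lt_of_le_of_ne ha ha1
  have h1 : (1 : ℕ) ∈ Finset.Icc 1 ((p - 1) / 2) := by rw [Finset.mem_Icc]; omega
  have hy : v y = q ^ e 1 := by
    obtain ⟨hj', ej⟩ := hmul 1 h1
    rw [one_nsmul, Affine.Point.some.injEq] at ej
    rw [ej.2, hY 1 h1]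
  by_cases hI : v a ^ 3 ≤ q ^ δ ∧ v b ^ 2 ≤ q ^ δ
  · -- potentially good reduction: the point would be a flex
    have hδ11 : δ < 12 := by
      by_contra h12
      refine hmin ⟨(pow_le_pow_iff_left₀ zero_le zero_le three_ne_zero).1 (hI.1.trans ?_),
        (pow_le_pow_iff_left₀ zero_le zero_le two_ne_zero).1 (hI.2.trans ?_)⟩ <;>
      · rw [← pow_mul]; exact hle.2 (by omega)
    obtain ⟨u, hu⟩ := IsAlgClosed.exists_pow_nat_eq (π ^ δ) (by norm_num : 0 < 12)
    have hu0 : u ≠ 0 := fun h => pow_ne_zero δ hπ (by rw [← hu, h, zero_pow]; norm_num)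
    have hw : v u ^ 12 = q ^ δ := by rw [← map_pow, hu, map_pow]
    set w := v u with hwdef
    have hw0 : 0 < w := v.pos_iff.2 hu0
    have hva : v (a / u ^ 4) ≤ 1 := by
      rw [map_div₀, map_pow, div_le_one₀ (pow_pos hw0 _),
        ← pow_le_pow_iff_left₀ zero_le zero_le three_ne_zero, ← pow_mul, hw]
      exact hI.1
    have hvb : v (b / u ^ 6) ≤ 1 := by
      rw [map_div₀, map_pow, div_le_one₀ (pow_pos hw0 _),
        ← pow_le_pow_iff_left₀ zero_le zero_le two_ne_zero, ← pow_mul, hw]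
      exact hI.2
    have hvD : v ((a / u ^ 4) ^ 3 - (b / u ^ 6) ^ 2) = 1 := by
      rw [show (a / u ^ 4) ^ 3 - (b / u ^ 6) ^ 2 = (a ^ 3 - b ^ 2) / u ^ 12 by field_simp,
        map_div₀, hD, map_pow, ← hwdef, hw, div_self (pow_ne_zero _ hq0.ne')]
    haveI : (shortL (a / u ^ 4) (b / u ^ 6)).IsElliptic :=
      isElliptic_shortL hv (v.ne_zero_iff.1 (hvD.symm ▸ one_ne_zero))
    obtain ⟨x', y', h', hP', hxx, hyy⟩ := exists_scaled hv (a' := a / u ^ 4) (b' := b / u ^ 6)
      hu0 (by field_simp) (by field_simp) hP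
    have hy1 := val_y_of_good hv hp h5 hva hvb hvD hP'
    have he : δ = 4 * e 1 := hinj <| by
      show q ^ δ = q ^ (4 * e 1)
      rw [mul_comm 4 (e 1), pow_mul, ← hy, hyy, map_mul, hy1, mul_one, map_pow, ← pow_mul, hw]
    refine false_of_flex hv hp h5 (lt_of_le_of_ne hva fun heq => ?_) hvb hvD hP'
      (lt_of_le_of_ne (val_x_le hv hp h5 (intCoeff_shortL hv hva hvb) hP') fun heq => ?_)
    · rcases ha' with rfl | ⟨α, hα⟩
      · simp at heq
      have h' : α * 3 = δ := hinj <| by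
        show q ^ (α * 3) = q ^ δ
        rw [map_div₀, map_pow, div_eq_one_iff_eq (pow_ne_zero _ hw0.ne')] at heq
        rw [pow_mul, ← hα, heq, ← pow_mul, hw]
      omega
    · rcases hx' with rfl | ⟨β, hβ⟩
      · rw [eq_comm, mul_eq_zero, or_iff_right (pow_ne_zero 2 hu0)] at hxx
        rw [hxx, map_zero] at heq
        exact zero_ne_one heq
      have h' : β * 6 = δ := hinj <| by
        show q ^ (β * 6) = q ^ δ
        rw [pow_mul, ← hβ, hxx, map_mul, heq, mul_one, map_pow, ← pow_mul, hw]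
      omega
  · -- potentially multiplicative reduction: the order of the ordinate would be half odd
    have heq : v a ^ 3 = v b ^ 2 ∧ q ^ δ < v a ^ 3 := by
      rw [← map_pow v a 3, ← map_pow v b 2, ← hD] at hI ⊢
      rcases not_and_or.1 hI with h' | h' <;> rw [not_le] at h'
      · have := v.map_sub_eq_of_lt_left h'
        rw [sub_sub_cancel] at this
        exact ⟨this.symm, h'⟩
      · have := v.map_add_eq_of_lt_left h'
        rw [add_sub_cancel] at this
        exact ⟨this, this ▸ h'⟩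
    rcases ha' with rfl | ⟨α, hα⟩
    · have := heq.2
      rw [map_zero, zero_pow three_ne_zero] at this
      exact not_lt_zero this
    rcases hb' with rfl | ⟨β, hβ⟩
    · have := heq.2.trans_eq heq.1
      rw [map_zero, zero_pow two_ne_zero] at this
      exact not_lt_zero this
    rw [hα, hβ, ← pow_mul, ← pow_mul] at heq
    have hαβ : α * 3 = β * 2 := hinj heq.1
    have hαδ : α * 3 < δ := by
      by_contra hc
      exact absurd heq.2 (not_lt.2 (hle.2 (not_lt.1 hc)))
    have hα0 : α ≠ 0 := fun h => by rw [hα, h, pow_zero] at ha1; exact lt_irrefl _ ha1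
    have hmin' : ¬(4 ≤ α ∧ 6 ≤ β) := fun hh => hmin ⟨hα ▸ hle.2 hh.1, hβ ▸ hle.2 hh.2⟩
    obtain ⟨rfl, rfl⟩ : α = 2 ∧ β = 3 := by omega
    obtain ⟨u, hu⟩ := IsAlgClosed.exists_pow_nat_eq π two_pos
    have hu0 : u ≠ 0 := fun h => hπ (by rw [← hu, h, zero_pow two_ne_zero])
    have hw : v u ^ 2 = q := by rw [← map_pow, hu]
    set w := v u with hwdef
    have hva : v (a / u ^ 4) = 1 := by
      rw [map_div₀, map_pow, hα, ← hwdef, show w ^ 4 = (w ^ 2) ^ 2 by rw [← pow_mul], hw,
        div_self (pow_ne_zero _ hq0.ne')]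
    have hvb : v (b / u ^ 6) ≤ 1 := by
      rw [map_div₀, map_pow, hβ, ← hwdef, show w ^ 6 = (w ^ 2) ^ 3 by rw [← pow_mul], hw,
        div_self (pow_ne_zero _ hq0.ne')]
    obtain ⟨ε, rfl⟩ := Nat.exists_eq_add_of_le (show 6 ≤ δ by omega)
    have hvD : v ((a / u ^ 4) ^ 3 - (b / u ^ 6) ^ 2) = q ^ ε := by
      rw [show (a / u ^ 4) ^ 3 - (b / u ^ 6) ^ 2 = (a ^ 3 - b ^ 2) / u ^ 12 by field_simp,
        map_div₀, hD, map_pow, ← hwdef, show w ^ 12 = (w ^ 2) ^ 6 by rw [← pow_mul], hw, pow_add,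
        mul_div_cancel_left₀ _ (pow_ne_zero _ hq0.ne')]
    have hε : ε ≠ 0 := by omega
    haveI : (shortL (a / u ^ 4) (b / u ^ 6)).IsElliptic :=
      isElliptic_shortL hv (v.ne_zero_iff.1 (hvD.symm ▸ pow_ne_zero _ hq0.ne'))
    obtain ⟨x', y', h', hP', hxx, hyy⟩ := exists_scaled hv (a' := a / u ^ 4) (b' := b / u ^ 6)
      hu0 (by field_simp) (by field_simp) hP
    obtain ⟨r, hN, hA⟩ := exists_mult hv hva hvb (hvD ▸ pow_lt_one₀ zero_le hπ1 hε)
    obtain ⟨h'', e'⟩ := origin_symm_some hv (r := r) h'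
    have hP'' : p • Affine.Point.some (x' - r) y' h'' = 0 := by
      rw [← e', ← map_nsmul, hP', map_zero]
    have hy2 : (q ^ e 1) ^ 2 = q ^ 3 * v y' ^ 2 := by
      rw [← hy, hyy, map_mul, map_pow, mul_pow, ← hwdef, ← pow_mul, show 3 * 2 = 2 * 3 from rfl,
        pow_mul, hw]
    rcases mult_point hv hp h5 hN hA hP'' with ⟨-, h1'⟩ | ⟨-, -, -, i, hi⟩
    · rw [h1', one_pow, mul_one, ← pow_mul] at hy2
      have : e 1 * 2 = 3 := hinj hy2
      omega
    · rw [hvD] at hi
      have hk : e 1 * 2 * p = 3 * p + ε * i * 2 := hinj <| by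
        show q ^ (e 1 * 2 * p) = q ^ (3 * p + ε * i * 2)
        rw [pow_mul, pow_mul (q) (e 1) 2, hy2, mul_pow, ← pow_mul, ← pow_mul, mul_comm 2 p,
          pow_mul (v y') p 2, hi, ← pow_mul, ← pow_mul, ← pow_add, mul_assoc ε]
      obtain ⟨k, hk'⟩ := hp.odd_of_ne_two (by omega)
      have : (e 1 * 2 * p) % 2 = 0 := by rw [mul_comm (e 1) 2, mul_assoc]; simp
      rw [hk, hk'] at this
      omega

end FA.LevinTorsion
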