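import Fermat.Agent.LevinTorsion.Extend
import Fermat.Agent.LevinTorsion.Local
import Fermat.Agent.SzpiroLine.Models
import Fermat.Agent.LangNeron.FiniteGen
import Fermat.Agent.Torsion.Tate

/-!
# Levin's bound for prime torsion over `k(T)`

A point of prime order `p ≥ 5` on a minimal model makes every singular fibre multiplicative. The
orders of the ordinates of its first `(p - 1) / 2` multiples then show that there are at most
`24 m / (p + 1)` singular fibres; by Szpiro's inequality there are at least `2 m + 2`, so `p ≤ 7`.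
-/

set_option autoImplicit false
set_option linter.unusedSectionVars false
set_option linter.style.haveILetI false

noncomputable section

open Polynomial WeierstrassCurve FA.SzpiroLine FA.NeronSpecialisation
open FA.FunctionFieldRank (pointMap pointMap_some pointMap_injective)
open scoped Classical

namespace FA.LevinTorsion

theorem two_mul_sum_Icc (h : ℕ) : 2 * ∑ i ∈ Finset.Icc 1 h, i = h * (h + 1) := by
  induction h with
  | zero => simp
  | succ n ih => rw [Finset.sum_Icc_succ_top (by omega), mul_add, ih]; ring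

/-- What one place contributes. -/
theorem exists_weight {p δ : ℕ} (hp : 2 ≤ p) {s : Finset ℕ} {e : ℕ → ℕ} {S : ℕ}
    (h0 : δ = 0 → ∀ j ∈ s, e j = 0)
    (h : (∀ j ∈ s, e j = 0) ∨ (p ∣ δ ∧ ∑ j ∈ s, e j = δ / p * S)) :
    ∃ c, ∑ j ∈ s, e j = c * S ∧ (δ = 0 → c = 0) ∧ (0 < δ → 1 + (p - 1) * c ≤ δ) := by
  rcases h with h | ⟨⟨d, rfl⟩, h⟩
  · exact ⟨0, by rw [Finset.sum_eq_zero h, zero_mul], fun _ => rfl, fun h' => by omega⟩
  rw [Nat.mul_div_cancel_left _ (by omega)] at h
  refine ⟨d, h, fun h' => (mul_eq_zero.1 h').resolve_left (by omega), fun h' => ?_⟩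
  have hd : 0 < d := Nat.pos_of_mul_pos_left h'
  obtain ⟨q, rfl⟩ := Nat.exists_eq_add_of_le (show 1 ≤ p by omega)
  rw [Nat.add_sub_cancel_left, add_mul, one_mul]
  omega

variable {k : Type*} [Field k] [CharZero k] {L : Type*} [Field L] (ι : RatFunc k →+* L)

theorem map_shortEq (A B : k[X]) : (shortEq A B).map ι =
    shortL (ι (algebraMap k[X] (RatFunc k) A)) (ι (algebraMap k[X] (RatFunc k) B)) := by
  ext <;> simp only [shortEq, shortL, WeierstrassCurve.map, map_zero, map_mul, map_neg, map_ofNat]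

/-- No root of the denominator: a polynomial. -/
theorem eq_algebraMap_of_integral [IsAlgClosed k] {x : RatFunc k}
    (h : ∀ (t : k) (B : ValuationSubring L),
      B.valuation (ι (algebraMap k[X] (RatFunc k) (X - C t))) < 1 →
      (∀ p : k[X], p ≠ 0 → B.valuation (ι (algebraMap k[X] (RatFunc k) p)) =
        B.valuation (ι (algebraMap k[X] (RatFunc k) (X - C t))) ^ p.rootMultiplicity t) →
      (∀ n : ℤ, n ≠ 0 → B.valuation (n : L) = 1) → B.valuation (ι x) ≤ 1) :
    ∃ p : k[X], x = algebraMap k[X] (RatFunc k) p := by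
  have hd : x.denom.natDegree = 0 := by
    by_contra hne
    obtain ⟨t, ht⟩ := IsAlgClosed.exists_root x.denom (fun e => hne (natDegree_eq_zero_iff_degree_le_zero.2 e.le))
    obtain ⟨B, h1, h2, h3⟩ := exists_at ι t
    have hx := h t B h1 h2 h3
    have hn0 : x.num ≠ 0 := fun e => by
      rw [RatFunc.num_eq_zero_iff] at e
      rw [e, RatFunc.denom_zero] at ht
      simp at ht
    have hnt : ¬x.num.IsRoot t := fun e => Polynomial.not_isUnit_X_sub_C t
      ((RatFunc.isCoprime_num_denom x).isUnit_of_dvd' (dvd_iff_isRoot.2 e) (dvd_iff_isRoot.2 ht))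
    have e : x * algebraMap k[X] (RatFunc k) x.denom = algebraMap k[X] (RatFunc k) x.num :=
      (eq_div_iff (RatFunc.algebraMap_ne_zero x.denom_ne_zero)).1 (RatFunc.num_div_denom x).symm
    have hv := congrArg (fun z => B.valuation (ι z)) e
    simp only [map_mul, h2 _ x.denom_ne_zero, h2 _ hn0, rootMultiplicity_eq_zero hnt,
      pow_zero] at hv
    exact absurd hv (ne_of_lt (lt_of_le_of_lt (mul_le_of_le_one_left' hx)
      (pow_lt_one₀ zero_le h1 ((rootMultiplicity_pos x.denom_ne_zero).2 ht).ne')))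
  refine ⟨x.num, ?_⟩
  conv_lhs => rw [← RatFunc.num_div_denom x, eq_one_of_monic_natDegree_zero x.monic_denom hd,
    map_one, div_one]

/-- An abscissa or ordinate integral at infinity has bounded degree. -/
theorem natDegree_le_of_integral {B : ValuationSubring L}
    (h1 : B.valuation (ι (RatFunc.X : RatFunc k)⁻¹) < 1)
    (h2 : ∀ (p : k[X]) (N : ℕ), p ≠ 0 → p.natDegree ≤ N →
      B.valuation (ι (algebraMap k[X] (RatFunc k) p / RatFunc.X ^ N)) =
        B.valuation (ι (RatFunc.X : RatFunc k)⁻¹) ^ (N - p.natDegree))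
    {p : k[X]} {N : ℕ} (h : B.valuation (ι (algebraMap k[X] (RatFunc k) p / RatFunc.X ^ N)) ≤ 1) :
    p.natDegree ≤ N := by
  by_contra hlt
  rw [not_le] at hlt
  obtain ⟨d, hd⟩ := Nat.exists_eq_add_of_lt hlt
  have hp : p ≠ 0 := fun e => by rw [e, natDegree_zero] at hlt; omega
  have hX : (RatFunc.X : RatFunc k) ≠ 0 := RatFunc.X_ne_zero
  have hv := h2 p p.natDegree hp le_rfl
  rw [show algebraMap k[X] (RatFunc k) p / RatFunc.X ^ p.natDegree =
    algebraMap k[X] (RatFunc k) p / RatFunc.X ^ N * (RatFunc.X : RatFunc k)⁻¹ ^ (d + 1) by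
      rw [hd, inv_pow, ← div_eq_mul_inv, div_div, ← pow_add, add_assoc], map_mul, map_mul, map_pow, map_pow, Nat.sub_self, pow_zero] at hv
  exact absurd hv (ne_of_lt (lt_of_le_of_lt (mul_le_of_le_one_left' h)
    (pow_lt_one₀ zero_le h1 (Nat.succ_ne_zero d))))

variable [IsAlgClosed k] {A B : k[X]} {m : ℕ}

set_option maxHeartbeats 800000 in
/-- **A point of prime order `p ≥ 5` on a minimal model**: semistable, and `p ≤ 7`. -/
theorem semistable_and_le_seven (hmin : Minimal A B m) (hm : 0 < m) (hD : A ^ 3 - B ^ 2 ≠ 0)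
    [(shortEq A B).IsElliptic] {p : ℕ} (hp : p.Prime) (h5 : 5 ≤ p)
    {P : (shortEq A B).toAffine.Point} (hP : p • P = 0) (hP0 : P ≠ 0) :
    (∀ t, (A ^ 3 - B ^ 2).IsRoot t → ¬A.IsRoot t) ∧
      ((A ^ 3 - B ^ 2).natDegree < 12 * m → A.natDegree = 4 * m) ∧
      (¬∃ c : k, A ^ 3 = C c * (A ^ 3 - B ^ 2)) ∧ p ≤ 7 ∧ (p = 7 → 2 ≤ m) := by
  set D := A ^ 3 - B ^ 2 with hDdef
  set g := algebraMap k[X] (RatFunc k) with hg
  set L := AlgebraicClosure (RatFunc k)
  set ι : RatFunc k →+* L := algebraMap (RatFunc k) L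
  set h := (p - 1) / 2 with hh
  have hgD : ∀ {q : k[X]}, q ≠ 0 → g q ≠ 0 := fun hq => RatFunc.algebraMap_ne_zero hq
  have hDι : ι (g A) ^ 3 - ι (g B) ^ 2 = ι (g D) := by
    simp only [hDdef, map_sub, map_pow]
  haveI hell : (shortL (ι (g A)) (ι (g B))).IsElliptic :=
    (WeierstrassCurve.isElliptic_iff _).2 (isUnit_iff_ne_zero.2 (by
      rw [Δ_shortL, hDι]
      exact mul_ne_zero (by norm_num) ((map_ne_zero ι).2 (hgD hD))))
  set φ := pointMap ι (map_shortEq ι A B)
  -- the multiples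
  have hmult : ∀ j ∈ Finset.Icc 1 h, ∃ (x y : RatFunc k) (hxy : (shortEq A B).toAffine.Nonsingular x y),
      j • P = .some x y hxy ∧ y ≠ 0 := by
    intro j hj
    rw [Finset.mem_Icc] at hj
    obtain ⟨n, hn⟩ := exists_nsmul_eq hp (Nat.not_dvd_of_pos_of_lt hj.1 (by omega)) hP
    rcases hjP : j • P with _ | ⟨x, y, hxy⟩
    · rw [← Affine.Point.zero_def] at hjP
      rw [hjP, nsmul_zero] at hn
      exact absurd hn.symm hP0
    refine ⟨x, y, hxy, rfl, fun hy => ?_⟩
    have h2 : 2 • (j • P) = 0 := by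
      rw [hjP, two_nsmul]
      exact Affine.Point.add_self_of_Y_eq (by simp [hy, shortEq, Affine.negY])
    obtain ⟨n', hn'⟩ := exists_nsmul_eq hp (n := 2)
      (fun hd => by have := Nat.le_of_dvd two_pos hd; omega)
      (show p • (j • P) = 0 by rw [← mul_nsmul, mul_comm, mul_nsmul, hP, nsmul_zero])
    rw [h2, nsmul_zero, hjP] at hn'
    exact Affine.Point.some_ne_zero hxy hn'.symm
  choose! x y hxy hjP hy0 using hmult
  have h1 : (1 : ℕ) ∈ Finset.Icc 1 h := by rw [Finset.mem_Icc]; omega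
  -- their images
  have hmulL : ∀ j (hj : j ∈ Finset.Icc 1 h), ∃ h', j • φ P =
      Affine.Point.some (W' := (shortL (ι (g A)) (ι (g B))).toAffine) (ι (x j)) (ι (y j)) h' :=
    fun j hj => ⟨_, by rw [← map_nsmul, hjP j hj]; rfl⟩
  obtain ⟨hns, hφ⟩ := hmulL 1 h1
  rw [one_nsmul] at hφ
  have hφp : p • φ P = 0 := by rw [← map_nsmul, hP, map_zero]
  rw [hφ] at hφp hmulL
  have htor : ∀ j (hj : j ∈ Finset.Icc 1 h), ∃ h', p •
      Affine.Point.some (W' := (shortL (ι (g A)) (ι (g B))).toAffine) (ι (x j)) (ι (y j)) h' = 0 :=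
    fun j hj => by
      obtain ⟨h', e⟩ := hmulL j hj
      exact ⟨h', by rw [← e, ← mul_nsmul, mul_comm, mul_nsmul, hφp, nsmul_zero]⟩
  -- the finite places
  have hfin : ∀ (t : k) (V : ValuationSubring L),
      V.valuation (ι (g (X - C t))) < 1 →
      (∀ q : k[X], q ≠ 0 → V.valuation (ι (g q)) =
        V.valuation (ι (g (X - C t))) ^ q.rootMultiplicity t) →
      (∀ n : ℤ, n ≠ 0 → V.valuation (n : L) = 1) →
      FA.Local.IntCoeff V.valuation (shortL (ι (g A)) (ι (g B))).toAffine := by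
    intro t V h1 h2 h3
    have hle : ∀ q : k[X], V.valuation (ι (g q)) ≤ 1 := fun q => by
      rcases eq_or_ne q 0 with rfl | hq
      · simp
      · rw [h2 q hq]; exact pow_le_one₀ zero_le h1.le
    exact intCoeff_shortL h3 (hle A) (hle B)
  have hpoly : ∀ j, ∃ XY : k[X] × k[X], j ∈ Finset.Icc 1 h → x j = g XY.1 ∧ y j = g XY.2 := by
    intro j
    by_cases hj : j ∈ Finset.Icc 1 h
    swap
    · exact ⟨0, fun h' => absurd h' hj⟩
    obtain ⟨h', ht⟩ := htor j hj
    obtain ⟨Xj, hX⟩ := eq_algebraMap_of_integral ι (x := x j) fun t V h1 h2 h3 =>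
      val_x_le h3 hp h5 (hfin t V h1 h2 h3) ht
    obtain ⟨Yj, hY⟩ := eq_algebraMap_of_integral ι (x := y j) fun t V h1 h2 h3 =>
      FA.Local.le_y_of_le_x (hfin t V h1 h2 h3) h'.1 (val_x_le h3 hp h5 (hfin t V h1 h2 h3) ht)
    exact ⟨(Xj, Yj), fun _ => ⟨hX, hY⟩⟩
  choose XY hXY using hpoly
  have hY0 : ∀ j ∈ Finset.Icc 1 h, (XY j).2 ≠ 0 := fun j hj e =>
    hy0 j hj (by rw [(hXY j hj).2, e, map_zero])
  -- at a finite place
  have hloc : ∀ t : k,
      (D.rootMultiplicity t = 0 → ∀ j ∈ Finset.Icc 1 h, (XY j).2.rootMultiplicity t = 0) ∧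
      (0 < D.rootMultiplicity t → ¬A.IsRoot t) ∧
      ((∀ j ∈ Finset.Icc 1 h, (XY j).2.rootMultiplicity t = 0) ∨
        (p ∣ D.rootMultiplicity t ∧ ∑ j ∈ Finset.Icc 1 h, (XY j).2.rootMultiplicity t =
          D.rootMultiplicity t / p * ∑ i ∈ Finset.Icc 1 h, i)) := by
    intro t
    obtain ⟨V, h1', h2, h3⟩ := exists_at ι t
    change V.valuation (ι (g (X - C t))) < 1 at h1'
    change ∀ q : k[X], q ≠ 0 → V.valuation (ι (g q)) =
      V.valuation (ι (g (X - C t))) ^ q.rootMultiplicity t at h2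
    have hle : ∀ q : k[X], V.valuation (ι (g q)) ≤ 1 := fun q => by
      rcases eq_or_ne q 0 with rfl | hq
      · simp
      · rw [h2 q hq]; exact pow_le_one₀ zero_le h1'.le
    have hpow : ∀ q : k[X], ι (g q) = 0 ∨ ∃ n : ℕ,
        V.valuation (ι (g q)) = V.valuation (ι (g (X - C t))) ^ n := fun q => by
      rcases eq_or_ne q 0 with rfl | hq
      · exact Or.inl (by simp)
      · exact Or.inr ⟨_, h2 q hq⟩
    have hπ : ι (g (X - C t)) ≠ 0 := (map_ne_zero ι).2 (hgD (X_sub_C_ne_zero t))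
    have hm' : ¬(V.valuation (ι (g A)) ≤ V.valuation (ι (g (X - C t))) ^ 4 ∧
        V.valuation (ι (g B)) ≤ V.valuation (ι (g (X - C t))) ^ 6) := by
      rintro ⟨hA4, hB6⟩
      refine hmin.2.2.2 t ⟨?_, ?_⟩
      · rcases eq_or_ne A 0 with hA | hA
        · rw [hA]; exact dvd_zero _
        rw [h2 A hA, pow_le_pow_iff_right_of_lt_one₀ (V.valuation.pos_iff.2 hπ) h1'] at hA4
        exact (le_rootMultiplicity_iff hA).1 hA4
      · rcases eq_or_ne B 0 with hB | hB
        · rw [hB]; exact dvd_zero _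
        rw [h2 B hB, pow_le_pow_iff_right_of_lt_one₀ (V.valuation.pos_iff.2 hπ) h1'] at hB6
        exact (le_rootMultiplicity_iff hB).1 hB6
    obtain ⟨ha, hb, hc⟩ := local_cases (v := V.valuation) h3 hp h5 hπ h1' (hle A) (hle B)
      hm' (hpow A) (hpow B)
      (δ := D.rootMultiplicity t) (by rw [hDι, h2 D hD]) hφp
      (by rw [(hXY 1 h1).1]; exact hpow _) (fun j => ι (x j)) (fun j => ι (y j))
      (fun j => (XY j).2.rootMultiplicity t) hmulL
      (fun j hj => by
        show V.valuation (ι (y j)) = _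
        rw [(hXY j hj).2]; exact h2 _ (hY0 j hj))
    refine ⟨ha, fun hδ hAt => ?_, hc⟩
    have h' := hb hδ
    rcases eq_or_ne A 0 with hA | hA
    · rw [hA, map_zero, map_zero, map_zero] at h'; exact zero_ne_one h'
    rw [h2 A hA] at h'
    exact (pow_lt_one₀ zero_le h1' ((rootMultiplicity_pos hA).2 hAt).ne').ne h'
  -- at infinity
  have hXr : (RatFunc.X : RatFunc k) ≠ 0 := RatFunc.X_ne_zero
  set u : L := ι RatFunc.X ^ m with hudef
  have hu : u ≠ 0 := pow_ne_zero _ ((map_ne_zero ι).2 hXr)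
  have hdiv : ∀ (q : RatFunc k) (i : ℕ), ι (q / RatFunc.X ^ (i * m)) = ι q / u ^ i := fun q i => by
    rw [map_div₀, map_pow, hudef, ← pow_mul, mul_comm m]
  obtain ⟨V, hv1, hv2, hv3⟩ := exists_infty ι
  set a' := ι (g A / RatFunc.X ^ (4 * m))
  set b' := ι (g B / RatFunc.X ^ (6 * m))
  have hD' : a' ^ 3 - b' ^ 2 = ι (g D / RatFunc.X ^ (12 * m)) := by
    simp only [a', b', hDdef, map_sub, map_pow, map_div₀, div_pow, ← pow_mul]
    rw [show 4 * m * 3 = 12 * m by omega, show 6 * m * 2 = 12 * m by omega, sub_div]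
  have hdegD : D.natDegree ≤ 12 * m := by
    refine (natDegree_sub_le _ _).trans (max_le ?_ ?_) <;> rw [natDegree_pow]
    · linarith [hmin.1]
    · linarith [hmin.2.1]
  haveI : (shortL a' b').IsElliptic := isElliptic_shortL hv3 (by
    rw [hD']; exact (map_ne_zero ι).2 (div_ne_zero (hgD hD) (pow_ne_zero _ hXr)))
  have hscale : ∀ j (hj : j ∈ Finset.Icc 1 h), ∃ h', p • Affine.Point.some
      (W' := (shortL a' b').toAffine) (ι (g (XY j).1 / RatFunc.X ^ (2 * m)))
        (ι (g (XY j).2 / RatFunc.X ^ (3 * m))) h' = 0 := by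
    intro j hj
    obtain ⟨h', ht⟩ := htor j hj
    obtain ⟨x', y', hn', ht', hx', hy'⟩ := exists_scaled hv3 (u := u) (a' := a') (b' := b') hu
      (by simp only [a', hdiv]; exact (mul_div_cancel₀ _ (pow_ne_zero _ hu)).symm)
      (by simp only [b', hdiv]; exact (mul_div_cancel₀ _ (pow_ne_zero _ hu)).symm) ht
    obtain rfl : x' = ι (g (XY j).1 / RatFunc.X ^ (2 * m)) := by
      rw [hdiv, eq_div_iff (pow_ne_zero _ hu), ← (hXY j hj).1, hx', mul_comm]
    obtain rfl : y' = ι (g (XY j).2 / RatFunc.X ^ (3 * m)) := by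
      rw [hdiv, eq_div_iff (pow_ne_zero _ hu), ← (hXY j hj).2, hy', mul_comm]
    exact ⟨hn', ht'⟩
  have hle : ∀ (q : k[X]) (N : ℕ), q.natDegree ≤ N →
      V.valuation (ι (g q / RatFunc.X ^ N)) ≤ 1 := fun q N hN => by
    rcases eq_or_ne q 0 with rfl | hq
    · simp
    · rw [hv2 q N hq hN]; exact pow_le_one₀ zero_le hv1.le
  have hI := intCoeff_shortL hv3 (hle A _ hmin.1) (hle B _ hmin.2.1)
  have hdeg : ∀ j ∈ Finset.Icc 1 h,
      (XY j).1.natDegree ≤ 2 * m ∧ (XY j).2.natDegree ≤ 3 * m := by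
    intro j hj
    obtain ⟨h', ht⟩ := hscale j hj
    have hx := val_x_le hv3 hp h5 hI ht
    exact ⟨natDegree_le_of_integral ι hv1 hv2 hx,
      natDegree_le_of_integral ι hv1 hv2 (FA.Local.le_y_of_le_x hI h'.1 hx)⟩
  have hinf : (12 * m - D.natDegree = 0 → ∀ j ∈ Finset.Icc 1 h, 3 * m - (XY j).2.natDegree = 0) ∧
      (0 < 12 * m - D.natDegree → A.natDegree = 4 * m) ∧
      ((∀ j ∈ Finset.Icc 1 h, 3 * m - (XY j).2.natDegree = 0) ∨
        (p ∣ 12 * m - D.natDegree ∧ ∑ j ∈ Finset.Icc 1 h, (3 * m - (XY j).2.natDegree) =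
          (12 * m - D.natDegree) / p * ∑ i ∈ Finset.Icc 1 h, i)) := by
    have hπ : ι (RatFunc.X : RatFunc k)⁻¹ ≠ 0 := (map_ne_zero ι).2 (inv_ne_zero hXr)
    have hpow : ∀ (q : k[X]) (N : ℕ), q.natDegree ≤ N → ι (g q / RatFunc.X ^ N) = 0 ∨
        ∃ n : ℕ, V.valuation (ι (g q / RatFunc.X ^ N)) =
          V.valuation (ι (RatFunc.X : RatFunc k)⁻¹) ^ n := fun q N hN => by
      rcases eq_or_ne q 0 with rfl | hq
      · exact Or.inl (by simp)
      · exact Or.inr ⟨_, hv2 q N hq hN⟩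
    obtain ⟨hns', hφp'⟩ := hscale 1 h1
    have hmul' : ∀ j ∈ Finset.Icc 1 h, ∃ h', j • Affine.Point.some
        (W' := (shortL a' b').toAffine) (ι (g (XY 1).1 / RatFunc.X ^ (2 * m)))
          (ι (g (XY 1).2 / RatFunc.X ^ (3 * m))) hns' =
        Affine.Point.some (ι (g (XY j).1 / RatFunc.X ^ (2 * m)))
          (ι (g (XY j).2 / RatFunc.X ^ (3 * m))) h' := by
      intro j hj
      obtain ⟨h', -⟩ := hscale j hj
      refine ⟨h', ?_⟩
      have hC : (⟨Units.mk0 u hu, 0, 0, 0⟩ : VariableChange L) •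
          shortL (ι (g A)) (ι (g B)) = shortL a' b' := by
        ext <;> simp only [variableChange_a₁, variableChange_a₂, variableChange_a₃,
          variableChange_a₄, variableChange_a₆, Units.val_inv_eq_inv_val, Units.val_mk0, shortL,
          a', b', hdiv]
        all_goals simp only [div_eq_mul_inv, inv_pow, mul_zero, zero_add]
        all_goals ring
      refine (FA.Frob.vcEquiv (⟨Units.mk0 u hu, 0, 0, 0⟩ : VariableChange L) hC).injective ?_
      have key : ∀ i (hi : i ∈ Finset.Icc 1 h) h'' h''',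
          FA.Frob.vcEquiv (⟨Units.mk0 u hu, 0, 0, 0⟩ : VariableChange L) hC
            (Affine.Point.some (ι (g (XY i).1 / RatFunc.X ^ (2 * m)))
              (ι (g (XY i).2 / RatFunc.X ^ (3 * m))) h'') =
          Affine.Point.some (W' := (shortL (ι (g A)) (ι (g B))).toAffine) (ι (x i)) (ι (y i))
            h''' := fun i hi h'' h''' => by
        rw [FA.Frob.vcEquiv_some, Affine.Point.some.injEq]
        simp only [FA.Frob.vcX, FA.Frob.vcY, Units.val_mk0, zero_mul, add_zero, hdiv,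
          (hXY i hi).1, (hXY i hi).2]
        exact ⟨mul_div_cancel₀ _ (pow_ne_zero _ hu), mul_div_cancel₀ _ (pow_ne_zero _ hu)⟩
      obtain ⟨h4, e4⟩ := hmulL j hj
      rw [map_nsmul, key 1 h1 _ hns, key j hj _ h4, e4]
    have hm' : ¬(V.valuation a' ≤ V.valuation (ι (RatFunc.X : RatFunc k)⁻¹) ^ 4 ∧
        V.valuation b' ≤ V.valuation (ι (RatFunc.X : RatFunc k)⁻¹) ^ 6) := by
      rintro ⟨hA4, hB6⟩
      refine hmin.2.2.1 ⟨?_, ?_⟩
      · rcases eq_or_ne A 0 with hA | hA
        · rw [hA, natDegree_zero]; omega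
        rw [hv2 A _ hA hmin.1,
          pow_le_pow_iff_right_of_lt_one₀ (V.valuation.pos_iff.2 hπ) hv1] at hA4
        have := hmin.1; omega
      · rcases eq_or_ne B 0 with hB | hB
        · rw [hB, natDegree_zero]; omega
        rw [hv2 B _ hB hmin.2.1,
          pow_le_pow_iff_right_of_lt_one₀ (V.valuation.pos_iff.2 hπ) hv1] at hB6
        have := hmin.2.1; omega
    obtain ⟨ha, hb, hc⟩ := local_cases (v := V.valuation) hv3 hp h5 hπ hv1
      (hle A _ hmin.1) (hle B _ hmin.2.1) hm' (hpow A _ hmin.1) (hpow B _ hmin.2.1)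
      (δ := 12 * m - D.natDegree) (by rw [hD', hv2 D _ hD hdegD]) hφp'
      (hpow _ _ (hdeg 1 h1).1)
      (fun j => ι (g (XY j).1 / RatFunc.X ^ (2 * m)))
      (fun j => ι (g (XY j).2 / RatFunc.X ^ (3 * m)))
      (fun j => 3 * m - (XY j).2.natDegree) hmul'
      (fun j hj => hv2 _ _ (hY0 j hj) (hdeg j hj).2)
    refine ⟨ha, fun hδ => ?_, hc⟩
    have h' := hb hδ
    rcases eq_or_ne A 0 with hA | hA
    · rw [hA, map_zero, zero_div, map_zero, map_zero] at h'; exact absurd h' zero_ne_one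
    rw [hv2 A _ hA hmin.1] at h'
    by_contra hne
    exact (pow_lt_one₀ zero_le hv1 (by have := hmin.1; omega)).ne h'
  have hss : ∀ t, D.IsRoot t → ¬A.IsRoot t := fun t ht =>
    (hloc t).2.1 ((rootMultiplicity_pos hD).2 ht)
  have hssinf : D.natDegree < 12 * m → A.natDegree = 4 * m := fun hlt => hinf.2.1 (by omega)
  have hj : ¬∃ c : k, A ^ 3 = C c * D := by
    rintro ⟨c, hc⟩
    rcases Nat.eq_zero_or_pos D.natDegree with hd | hd
    · have h' := congrArg natDegree hc
      rw [natDegree_pow, hssinf (by omega)] at h'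
      have := natDegree_C_mul_le c D
      omega
    · obtain ⟨t, ht⟩ := IsAlgClosed.exists_root D
        (fun e => hd.ne' (natDegree_eq_zero_iff_degree_le_zero.2 e.le))
      refine hss t ht (eq_zero_of_pow_eq_zero (n := 3) ?_)
      rw [← eval_pow, hc, eval_mul, ht.eq_zero, mul_zero]
  refine ⟨hss, hssinf, hj, ?_⟩
  -- the count
  set T := D.roots.toFinset with hT
  set S := ∑ i ∈ Finset.Icc 1 h, i with hS
  choose c hc1 hc0 hc2 using fun t => exists_weight (p := p) (by omega) (hloc t).1 (hloc t).2.2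
  obtain ⟨c', hc'1, hc'0, hc'2⟩ := exists_weight (p := p) (by omega) hinf.1 hinf.2.2
  have hTpos : ∀ t ∈ T, 0 < D.rootMultiplicity t := fun t ht =>
    (rootMultiplicity_pos hD).2 ((mem_roots hD).1 (Multiset.mem_toFinset.1 ht))
  have hYdeg : ∀ j ∈ Finset.Icc 1 h,
      ∑ t ∈ T, (XY j).2.rootMultiplicity t + (3 * m - (XY j).2.natDegree) = 3 * m := by
    intro j hj
    have e : ∑ t ∈ T, (XY j).2.rootMultiplicity t = (XY j).2.natDegree := by
      rw [natDegree_eq_sum_roots]
      refine (Finset.sum_subset (fun t ht => ?_) fun t _ ht => ?_).symm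
      · rw [Multiset.mem_toFinset, mem_roots (hY0 j hj)] at ht
        rw [hT, Multiset.mem_toFinset, mem_roots hD]
        by_contra hne
        exact absurd ((hloc t).1 (rootMultiplicity_eq_zero hne) j hj)
          ((rootMultiplicity_pos (hY0 j hj)).2 ht).ne'
      · rw [← count_roots, Multiset.count_eq_zero]
        exact fun h' => ht (Multiset.mem_toFinset.2 h')
    rw [e]
    have := (hdeg j hj).2
    omega
  have htot : (∑ t ∈ T, c t + c') * S = h * (3 * m) := by
    rw [add_mul, Finset.sum_mul, ← hc'1, Finset.sum_congr rfl fun t _ => (hc1 t).symm,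
      Finset.sum_comm, ← Finset.sum_add_distrib, Finset.sum_congr rfl hYdeg, Finset.sum_const,
      Nat.card_Icc, smul_eq_mul, Nat.add_sub_cancel]
  have hcard : T.card + (p - 1) * ∑ t ∈ T, c t ≤ D.natDegree := by
    rw [natDegree_eq_sum_roots D, Finset.card_eq_sum_ones, Finset.mul_sum,
      ← Finset.sum_add_distrib]
    exact Finset.sum_le_sum fun t ht => hc2 t (hTpos t ht)
  have hsz := szpiro hmin hD hj
  have hN : SzpiroLine.conductor A B m = T.card + if D.natDegree < 12 * m then 1 else 0 := by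
    rw [SzpiroLine.conductor, Finset.card_eq_sum_ones]
    congr 1
    · exact Finset.sum_congr rfl fun t ht =>
        if_neg (hss t ((mem_roots hD).1 (Multiset.mem_toFinset.1 ht)))
    · split_ifs with h1' h2
      · have := hssinf h1'; omega
      · rfl
      · rfl
  have hp1 : p - 1 = 2 * h := by
    obtain ⟨a, ha⟩ := hp.odd_of_ne_two (by omega)
    omega
  have hNC : SzpiroLine.conductor A B m + 2 * h * (∑ t ∈ T, c t + c') ≤ 12 * m := by
    rw [hN, mul_add]
    rw [hp1] at hcard hc'2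
    split_ifs with h1'
    · have := hc'2 (by omega); omega
    · rw [hc'0 (by omega)]; omega
  have hh0 : 0 < h := by omega
  have hC : (∑ t ∈ T, c t + c') * (h + 1) = 6 * m := by
    refine Nat.eq_of_mul_eq_mul_left hh0 ?_
    have hS2 : 2 * S = h * (h + 1) := two_mul_sum_Icc h
    calc h * ((∑ t ∈ T, c t + c') * (h + 1)) = 2 * ((∑ t ∈ T, c t + c') * S) := by
          rw [mul_left_comm, ← hS2]; ring
      _ = h * (6 * m) := by rw [htot]; ring
  have hbound : (2 * m + 2) * (h + 1) ≤ 12 * m := by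
    have := Nat.mul_le_mul_right (h + 1) hNC
    rw [add_mul, mul_assoc (2 * h), hC] at this
    have h2 : (2 * m + 2) * (h + 1) ≤ SzpiroLine.conductor A B m * (h + 1) :=
      Nat.mul_le_mul_right _ (by omega)
    nlinarith
  refine ⟨?_, fun h7 => ?_⟩
  · have hh4 : h ≤ 4 := by
      by_contra hlt
      have := Nat.mul_le_mul_left (2 * m + 2) (show 6 ≤ h + 1 by omega)
      omega
    have : p ≤ 9 := by omega
    interval_cases p <;> first | omega | exact absurd hp (by decide)
  · have : h = 3 := by omega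
    rw [this] at hbound
    omega

end FA.LevinTorsion
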