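import Fermat.Agent.NeronSpecialisation.Place
import Mathlib.FieldTheory.RatFunc.Valuation
import Mathlib.RingTheory.Valuation.LocalSubring
import Mathlib.FieldTheory.IsAlgClosed.Basic

/-!
# The places of `k(T)` in a field containing it

Every valuation of a field extends to every larger field. So a place of `k(T)` gives a valuation
of a larger field at which the value of a polynomial is read off its order, or its degree.
-/

set_option autoImplicit false
set_option linter.unusedSectionVars false

noncomputable section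

open Polynomial FA.NeronSpecialisation
open scoped Classical

namespace FA.LevinTorsion

variable {k : Type*} [Field k] {L : Type*} [Field L] (ι : RatFunc k →+* L)

/-- **A valuation extends.** -/
theorem exists_extend {F : Type*} [Field F] (A : ValuationSubring F) (ι : F →+* L) :
    ∃ B : ValuationSubring L, (∀ x, A.valuation x = 1 → B.valuation (ι x) = 1) ∧
      ∀ x, A.valuation x < 1 → B.valuation (ι x) < 1 := by
  obtain ⟨B, hB, hloc⟩ := IsLocalRing.exists_factor_valuationRing (ι.comp A.subtype)
  refine ⟨B, fun x hx => ?_, fun x hx => ?_⟩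
  · have hu : IsUnit (⟨x, (A.valuation_le_one_iff x).1 hx.le⟩ : A) :=
      (A.valuation_eq_one_iff _).2 hx
    exact (B.valuation_eq_one_iff _).1
      (hu.map ((ι.comp A.subtype).codRestrict B.toSubring hB))
  · have hm : x ∈ A := (A.valuation_le_one_iff x).1 hx.le
    refine lt_of_le_of_ne ((B.valuation_le_one_iff _).2 (hB ⟨x, hm⟩)) fun h => ?_
    have hu : IsUnit (⟨x, hm⟩ : A) := hloc.map_nonunit _
      ((B.valuation_eq_one_iff (((ι.comp A.subtype).codRestrict B.toSubring hB) ⟨x, hm⟩)).2 h)
    exact hx.ne ((A.valuation_eq_one_iff _).1 hu)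

variable [CharZero k]

/-- **A finite place.** -/
theorem exists_at (t : k) : ∃ B : ValuationSubring L,
    B.valuation (ι (algebraMap k[X] (RatFunc k) (X - C t))) < 1 ∧
      (∀ p : k[X], p ≠ 0 → B.valuation (ι (algebraMap k[X] (RatFunc k) p)) =
        B.valuation (ι (algebraMap k[X] (RatFunc k) (X - C t))) ^ p.rootMultiplicity t) ∧
      ∀ n : ℤ, n ≠ 0 → B.valuation (n : L) = 1 := by
  obtain ⟨B, h1, h0⟩ := exists_extend (valueRing t) ι
  have key : ∀ p : k[X], p.eval t ≠ 0 →
      B.valuation (ι (algebraMap k[X] (RatFunc k) p)) = 1 := fun p hp => by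
    refine h1 _ ?_
    have hu : IsUnit (⟨_, algebraMap_mem_valueRing t p⟩ : valueRing t) :=
      (isUnit_map_iff (valueAt t) _).1 (by rw [valueAt_algebraMap]; exact hp.isUnit)
    exact ((valueRing t).valuation_eq_one_iff _).1 hu
  refine ⟨B, h0 _ ?_, fun p hp => ?_, fun n hn => ?_⟩
  · refine lt_of_le_of_ne (((valueRing t).valuation_le_one_iff _).2
      (algebraMap_mem_valueRing t _)) fun h => ?_
    have hu := ((valueRing t).valuation_eq_one_iff
      ⟨_, algebraMap_mem_valueRing t (X - C t)⟩).2 h
    have := hu.map (valueAt t)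
    rw [valueAt_algebraMap, eval_sub, eval_X, eval_C, sub_self] at this
    exact not_isUnit_zero this
  · obtain ⟨c, hc, hnd⟩ := exists_eq_pow_rootMultiplicity_mul_and_not_dvd p hp t
    have hct : c.eval t ≠ 0 := fun e => hnd (dvd_iff_isRoot.2 e)
    conv_lhs => rw [hc]
    rw [map_mul, map_mul, map_mul, map_pow, map_pow, map_pow, key c hct, mul_one]
  · rw [← map_intCast (ι.comp (algebraMap k[X] (RatFunc k))) n, RingHom.comp_apply]
    exact key _ (by rw [eval_intCast]; exact Int.cast_ne_zero.2 hn)

/-- **The place at infinity.** -/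
theorem exists_infty : ∃ B : ValuationSubring L,
    B.valuation (ι (RatFunc.X : RatFunc k)⁻¹) < 1 ∧
      (∀ (p : k[X]) (N : ℕ), p ≠ 0 → p.natDegree ≤ N →
        B.valuation (ι (algebraMap k[X] (RatFunc k) p / RatFunc.X ^ N)) =
          B.valuation (ι (RatFunc.X : RatFunc k)⁻¹) ^ (N - p.natDegree)) ∧
      ∀ n : ℤ, n ≠ 0 → B.valuation (n : L) = 1 := by
  set w := RatFunc.inftyValuation k
  obtain ⟨B, h1, h0⟩ := exists_extend w.valuationSubring ι
  have hequiv := w.isEquiv_valuation_valuationSubring
  have h1' : ∀ x, w x = 1 → B.valuation (ι x) = 1 := fun x hx =>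
    h1 x (hequiv.eq_one_iff_eq_one.1 hx)
  have hX : (RatFunc.X : RatFunc k) ≠ 0 := RatFunc.X_ne_zero
  refine ⟨B, h0 _ (hequiv.lt_one_iff_lt_one.1 ?_), fun p N hp hN => ?_, fun n hn => ?_⟩
  · rw [map_inv₀, RatFunc.inftyValuation.X, ← WithZero.exp_neg, ← WithZero.exp_zero,
      WithZero.exp_lt_exp]
    norm_num
  · have hu : w (algebraMap k[X] (RatFunc k) p / RatFunc.X ^ p.natDegree) = 1 := by
      rw [map_div₀, map_pow, RatFunc.inftyValuation.X, RatFunc.inftyValuation_apply,
        RatFunc.inftyValuation.polynomial k hp, ← WithZero.exp_nsmul, nsmul_eq_mul, mul_one,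
        div_self WithZero.exp_ne_zero]
    have e : algebraMap k[X] (RatFunc k) p / RatFunc.X ^ N =
        algebraMap k[X] (RatFunc k) p / RatFunc.X ^ p.natDegree *
          (RatFunc.X : RatFunc k)⁻¹ ^ (N - p.natDegree) := by
      obtain ⟨d, rfl⟩ := Nat.exists_eq_add_of_le hN
      rw [add_tsub_cancel_left, pow_add, inv_pow]
      field_simp
    rw [e, map_mul, map_mul, map_pow, map_pow, h1' _ hu, one_mul]
  · rw [← map_intCast ι n]
    refine h1' _ ?_
    rw [← map_intCast (RatFunc.C : k →+* RatFunc k) n]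
    exact RatFunc.inftyValuation.C k (Int.cast_ne_zero.2 hn)

end FA.LevinTorsion
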